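import Mathlib.Algebra.Ring.Identities
import Mathlib.FieldTheory.KummerExtension

/-!
# The theorem of Vahlen and Capelli

`X ^ n - a` is built from prime degrees: over a root `α` of `X ^ p - a` the hypotheses hold again,
by the norm for odd `p` and by writing elements as `u + v α` for `p = 2`.
-/

set_option autoImplicit false

noncomputable section

open Polynomial IntermediateField

namespace FA.Capelli

universe u

/-- The conditions of the theorem. -/
def Good (n : ℕ) {K : Type u} [Field K] (a : K) : Prop :=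
  (∀ p : ℕ, p.Prime → p ∣ n → ∀ b : K, b ^ p ≠ a) ∧ (4 ∣ n → ∀ b : K, a ≠ -(4 * b ^ 4))

variable {K : Type u} [Field K]

theorem isIntegral_of_minpoly {E : Type u} [Field E] [Algebra K E] {x : E} {p : ℕ} {a : K}
    (hp : 0 < p) (hx : minpoly K x = X ^ p - C a) : IsIntegral K x :=
  not_not.mp fun h => X_pow_sub_C_ne_zero hp a (hx.symm.trans (dif_neg h))

/-- The step at an odd prime. -/
theorem good_gen_of_odd {p m : ℕ} (hp : Odd p) {a : K} (ha : Good (p * m) a) {E : Type u}
    [Field E] [Algebra K E] {x : E} (hx : minpoly K x = X ^ p - C a) :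
    Good m (AdjoinSimple.gen K x) := by
  have hint := isIntegral_of_minpoly hp.pos hx
  have hnorm : Algebra.norm K (AdjoinSimple.gen K x) = a := by
    rw [← adjoin.powerBasis_gen hint, Algebra.PowerBasis.norm_gen_eq_coeff_zero_minpoly]
    simp [minpoly_gen, hx, hp.pos.ne, hp.neg_pow]
  refine ⟨fun q hq hqm b hb => ha.1 q hq (hqm.mul_left p) (Algebra.norm K b) ?_, fun h4 b hb => ?_⟩
  · rw [← map_pow, hb, hnorm]
  obtain ⟨r, rfl⟩ := hp
  refine ha.2 (h4.mul_left _) (2 ^ r * Algebra.norm K b) ?_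
  have hdim : Module.finrank K K⟮x⟯ = 2 * r + 1 := by
    rw [adjoin.finrank hint, hx, natDegree_X_pow_sub_C]
  have h1 : -(4 * b ^ 4) = algebraMap K K⟮x⟯ (-4) * b ^ 4 := by
    rw [map_neg, map_ofNat]
    ring
  rw [h1] at hb
  rw [hb, map_mul, map_pow, Algebra.norm_algebraMap, hdim] at hnorm
  rw [← hnorm, pow_succ, pow_mul, show ((-4 : K)) ^ 2 = (2 ^ 4 : K) by norm_num, ← pow_mul,
    mul_pow (2 ^ r : K), ← pow_mul]
  ring

/-- The step at `2`: neither `α` nor `-α` is a square in `K (α)`. -/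
theorem gen_ne_sq {a : K} (ha : ∀ b : K, b ^ 2 ≠ a) (ha4 : ∀ b : K, a ≠ -(4 * b ^ 4)) {E : Type u}
    [Field E] [Algebra K E] {x : E} (hx : minpoly K x = X ^ 2 - C a) {c : K} (hc : c ^ 2 = 1)
    (b : K⟮x⟯) : b ^ 2 ≠ algebraMap K _ c * AdjoinSimple.gen K x := by
  intro hb
  set g := AdjoinSimple.gen K x
  have hint := isIntegral_of_minpoly two_pos hx
  have hg : g ^ 2 = algebraMap K _ a := by
    have h := minpoly.aeval K g
    rw [minpoly_gen, hx] at h
    simpa [sub_eq_zero] using h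
  have hindep : ∀ u v : K, algebraMap K K⟮x⟯ u + algebraMap K _ v * g = 0 → u = 0 ∧ v = 0 := by
    intro u v h
    rcases eq_or_ne v 0 with rfl | hv
    · exact ⟨by simpa using h, rfl⟩
    refine absurd ?_ (ha (u / v))
    apply (algebraMap K K⟮x⟯).injective
    rw [map_pow, map_div₀, ← hg, eq_neg_of_add_eq_zero_left h,
      neg_div, mul_div_cancel_left₀ _ (by simpa using hv), neg_sq]
  obtain ⟨f, hdeg, hf⟩ := (adjoin.powerBasis hint).exists_eq_aeval b
  rw [adjoin.powerBasis_gen] at hf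
  rw [show (adjoin.powerBasis hint).dim = 2 by simp [adjoin.powerBasis_dim, hx]] at hdeg
  have hlin := eq_X_add_C_of_natDegree_le_one (show f.natDegree ≤ 1 by omega)
  obtain ⟨u, v, huv⟩ : ∃ u v : K, b = algebraMap K _ u + algebraMap K _ v * g := by
    refine ⟨f.coeff 0, f.coeff 1, ?_⟩
    rw [hf]
    conv_lhs => rw [hlin]
    simp [g, add_comm]
  have h := hindep (u ^ 2 + v ^ 2 * a) (2 * u * v - c) (by
    rw [huv] at hb
    simp only [map_add, map_sub, map_mul, map_pow, map_ofNat]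
    linear_combination hb - (algebraMap K K⟮x⟯ v) ^ 2 * hg)
  refine ha4 u ?_
  linear_combination 4 * u ^ 2 * h.1 - a * (2 * u * v + c) * h.2 - a * hc

/-- The step at `2`. -/
theorem good_gen_two {j : ℕ} {a : K} (ha : Good (2 * 2 ^ j) a) {E : Type u} [Field E]
    [Algebra K E] {x : E} (hx : minpoly K x = X ^ 2 - C a) :
    Good (2 ^ j) (AdjoinSimple.gen K x) := by
  rcases j with - | j
  · exact ⟨fun q hq h => absurd (Nat.dvd_one.1 h) hq.ne_one, fun h => by norm_num at h⟩
  have h2 := ha.1 2 Nat.prime_two (dvd_mul_right _ _)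
  have h4 := ha.2 ⟨2 ^ j, by ring⟩
  refine ⟨fun q hq hqm b hb => ?_, fun _ b hb => ?_⟩
  · obtain rfl := (Nat.prime_dvd_prime_iff_eq hq Nat.prime_two).1 (hq.dvd_of_dvd_pow hqm)
    exact gen_ne_sq h2 h4 hx (one_pow 2) b (by rw [map_one, one_mul, hb])
  · refine gen_ne_sq h2 h4 hx (c := -1) (by ring) (2 * b ^ 2) ?_
    rw [map_neg, map_one, neg_one_mul, hb]
    ring

/-- **Sufficiency.** -/
theorem irreducible_of_good : ∀ (n : ℕ), 0 < n → ∀ {K : Type u} [Field K] {a : K}, Good n a →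
    Irreducible (X ^ n - C a) := by
  intro n
  induction n using Nat.strong_induction_on with
  | _ n ih =>
    intro hn K _ a ha
    rcases eq_or_ne n 1 with rfl | hn1
    · simpa using irreducible_X_sub_C a
    by_cases hodd : ∃ p, p.Prime ∧ p ≠ 2 ∧ p ∣ n
    · obtain ⟨p, hp, hp2, m, rfl⟩ := hodd
      have hm : 0 < m := Nat.pos_of_mul_pos_left hn
      rw [mul_comm]
      exact X_pow_mul_sub_C_irreducible
        (X_pow_sub_C_irreducible_of_prime hp (ha.1 p hp (dvd_mul_right _ _))) fun E _ _ x hx =>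
          ih m (lt_mul_of_one_lt_left hm hp.one_lt) hm
            (good_gen_of_odd (hp.odd_of_ne_two hp2) ha hx)
    obtain ⟨k, rfl⟩ : ∃ k, n = 2 ^ k := ⟨n.primeFactorsList.length,
      Nat.eq_prime_pow_of_unique_prime_dvd hn.ne' fun {q} hq hqn =>
        by_contra fun h => hodd ⟨q, hq, h, hqn⟩⟩
    obtain ⟨j, rfl⟩ : ∃ j, k = j + 1 :=
      ⟨k - 1, by rcases k with - | k; exacts [absurd (pow_zero 2) hn1, rfl]⟩
    rw [pow_succ' 2 j] at ha
    rw [pow_succ 2 j]
    exact X_pow_mul_sub_C_irreducible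
      (X_pow_sub_C_irreducible_of_prime Nat.prime_two (ha.1 2 Nat.prime_two (dvd_mul_right _ _)))
      fun E _ _ x hx => ih (2 ^ j) (Nat.pow_lt_pow_right (by norm_num) (by omega)) (by positivity)
        (good_gen_two ha hx)

/-- **Necessity.** -/
theorem good_of_irreducible {n : ℕ} {a : K} (h : Irreducible (X ^ n - C a)) : Good n a := by
  refine ⟨fun p hp hpn => pow_ne_of_irreducible_X_pow_sub_C h hpn hp.ne_one, fun h4 b hb => ?_⟩
  obtain ⟨m, rfl⟩ := h4
  have hn := ne_zero_of_irreducible_X_pow_sub_C h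
  have hm : m ≠ 0 := fun h => hn (by simp [h])
  have e : (X : K[X]) ^ (4 * m) - C a =
      ((X ^ m - C b) ^ 2 + C b ^ 2) * ((X ^ m + C b) ^ 2 + C b ^ 2) := by
    rw [← pow_four_add_four_mul_pow_four, hb, map_neg, map_mul, map_ofNat, map_pow, ← pow_mul,
      mul_comm m 4]
    ring
  have hdeg : ∀ g : K[X], g.natDegree < 2 * m → ((X ^ m) ^ 2 + g).natDegree = 2 * m :=
      fun g hg => by
    rw [← pow_mul, mul_comm m 2, natDegree_add_eq_left_of_natDegree_lt (by simpa using hg),
      natDegree_X_pow]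
  have hg : ∀ c : K, (C c * X ^ m + C (2 * b ^ 2)).natDegree < 2 * m := fun c =>
    lt_of_le_of_lt ((natDegree_add_le _ _).trans (max_le ((natDegree_C_mul_X_pow_le c m))
      ((natDegree_C _).trans_le (Nat.zero_le _)))) (by omega)
  rcases h.isUnit_or_isUnit e with hu | hu
  all_goals have hz := natDegree_eq_zero_of_isUnit hu
  · rw [show (X ^ m - C b) ^ 2 + C b ^ 2 = (X ^ m) ^ 2 + (C (-2 * b) * X ^ m + C (2 * b ^ 2)) by
      simp only [map_mul, map_neg, map_ofNat, map_pow]; ring, hdeg _ (hg _)] at hz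
    omega
  · rw [show (X ^ m + C b) ^ 2 + C b ^ 2 = (X ^ m) ^ 2 + (C (2 * b) * X ^ m + C (2 * b ^ 2)) by
      simp only [map_mul, map_ofNat, map_pow]; ring, hdeg _ (hg _)] at hz
    omega

end FA.Capelli

end
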